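import Fermat.Agent.A2.Mod.H372.S3Base
import Fermat.Agent.S18.H394.ChartInst

/-!
# A2 / MODASM S3 (helper372): the charts of level `Mq` are noetherian

From leaf L8 (`DegStatement`: `x` transcendental over `E`, `[F_{Mq} : E(x)] < ∞`) and
`S18.H394.chart_instances`.
-/

set_option autoImplicit false
set_option synthInstance.maxHeartbeats 400000
set_option maxHeartbeats 1600000
set_option linter.unusedSectionVars false
set_option linter.style.haveILetI false

noncomputable section

namespace Fermat.Agent.A2.Mod.H372

open ModularCurve HahnSeries Polynomial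
open Fermat.Agent.S18

variable {P : ValuationSubring Qb} {E : IntermediateField ℚ Qb}

/-- `E(x) ⊆ R_E(x)` inside `F`. -/
theorem adjoin_le_baseField {N : ℕ} (x : FE E N) {f : FE E N}
    (hf : f ∈ IntermediateField.adjoin E ({x} : Set (FE E N))) :
    f ∈ H138.baseField (RE P E) x := by
  have hf' : f ∈ Subfield.closure (Set.range (algebraMap E (FE E N)) ∪ ({x} : Set (FE E N))) := hf
  refine (Subfield.closure_le (t := H138.baseField (RE P E) x)).mpr ?_ hf'
  rintro z (⟨e, rfl⟩ | hz)
  · rcases (RE P E).mem_or_inv_mem e with he | he
    · exact Subfield.subset_closure (Or.inl ⟨⟨e, he⟩, rfl⟩)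
    · have h1 : algebraMap E (FE E N) e⁻¹ ∈ H138.baseField (RE P E) x :=
        Subfield.subset_closure (Or.inl ⟨⟨e⁻¹, he⟩, rfl⟩)
      have h2 := (H138.baseField (RE P E) x).inv_mem h1
      rwa [map_inv₀, inv_inv] at h2
  · exact Subfield.subset_closure (Or.inr hz)

/-- finiteness over `E(x)` implies finiteness over `R_E(x)`. -/
theorem finiteDimensional_baseField {N : ℕ} (x : FE E N)
    [FiniteDimensional (IntermediateField.adjoin E ({x} : Set (FE E N))) (FE E N)] :
    FiniteDimensional (H138.baseField (RE P E) x) (FE E N) := by
  let ι : IntermediateField.adjoin E ({x} : Set (FE E N)) →+* H138.baseField (RE P E) x :=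
    { toFun := fun a => ⟨a, adjoin_le_baseField x a.2⟩
      map_one' := rfl
      map_mul' := fun _ _ => rfl
      map_zero' := rfl
      map_add' := fun _ _ => rfl }
  letI : Algebra (IntermediateField.adjoin E ({x} : Set (FE E N))) (H138.baseField (RE P E) x) :=
    ι.toAlgebra
  haveI : IsScalarTower (IntermediateField.adjoin E ({x} : Set (FE E N)))
      (H138.baseField (RE P E) x) (FE E N) := IsScalarTower.of_algebraMap_eq (fun _ => rfl)
  exact Module.Finite.of_restrictScalars_finite
    (IntermediateField.adjoin E ({x} : Set (FE E N))) (H138.baseField (RE P E) x) (FE E N)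

/-- **The charts are noetherian.** -/
theorem isNoetherianRing_chartAlg_of_transcendental {N : ℕ}
    (hdvr : IsDiscreteValuationRing (RE P E)) (x : FE E N) (hx : Transcendental E x)
    [FiniteDimensional (IntermediateField.adjoin E ({x} : Set (FE E N))) (FE E N)] :
    IsNoetherianRing (chartAlg P E N x) ∧ IsNoetherianRing (chartAlg P E N x⁻¹) := by
  haveI := hdvr
  have hinj : Function.Injective (algebraMap (RE P E) E) := Subtype.val_injective
  have hxR : Transcendental (RE P E) x := hx.restrictScalars hinj
  have hxi : Transcendental E x⁻¹ := fun h => hx (IsAlgebraic.inv_iff.mp h)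
  have hxiR : Transcendental (RE P E) x⁻¹ := hxi.restrictScalars hinj
  haveI h1 : FiniteDimensional (H138.baseField (RE P E) x) (FE E N) :=
    finiteDimensional_baseField x
  haveI h2 : FiniteDimensional (H138.baseField (RE P E) x⁻¹) (FE E N) := by
    rw [H138.baseField_inv]
    exact h1
  exact ⟨(H394.chart_instances hxR).1, (H394.chart_instances hxiR).1⟩

end Fermat.Agent.A2.Mod.H372
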