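import Fermat.Agent.A2.Mod.H372.S3
import Fermat.Agent.A2.Mod.H553.Fricke
import Fermat.Agent.A2.Mod.H900.L7
import Fermat.Agent.A2.Mod.H816.L8
import Fermat.Agent.A2.Mod.H378.L11
import Fermat.Agent.A2.Mod.H96.L12
import Fermat.Agent.A2.Mod.H142.S2Final

/-!
# A2 / MODASM sub-assembly S3 (ordinary double points), UNCONDITIONAL (helper372)

`s3 : S3Statement P E M q w` (VERBATIM `A2/Mod/Asm.lean`), from `s3_of_leaves` with the leaves
L4, L5 (`H553`), L7 (`H900`), L8 (`H816`), L11 (`H378`), L12 (`H96`) and the sub-assembly S2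
(`H142.s2`) taken from main.
-/

set_option autoImplicit false
set_option synthInstance.maxHeartbeats 400000
set_option maxHeartbeats 1600000

namespace Fermat.Agent.A2.Mod.H372

/-- **MODASM sub-assembly S3** (`(p∞ ⊔ p₀).IsRadical`: the two components of the special fibre
meet in ordinary double points). -/
theorem s3 (P : ValuationSubring Qb) (E : IntermediateField ℚ Qb) (M q : ℕ) [NeZero M]
    [NeZero q] (w : RE P E) : S3Statement P E M q w :=
  s3_of_leaves P E M q w (H553.frickeExists E) (H553.frickeCompat E M q)
    (H900.frickeStable P E M q w) (H816.deg E M q) (H378.resInf P E M q w)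
    (H96.kron P E M q w) (H142.s2 P E M q w)

end Fermat.Agent.A2.Mod.H372
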